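/-
S26 (torsion of abelian varieties), block SOFT, leaf S3 (helper685): pure algebra.

`SqZ K V` is the trivial square-zero extension `K ⊕ V` of a commutative ring `K` by a `K`-module
`V` (own copy, so that only `[Module K V]` is needed), functorial in `V`, together with
* `SqZ.ext_prod`  : `K ⊕ (V × V')` embeds into `(K ⊕ V) × (K ⊕ V')`;
* `SqZ.toRing`    : for a square-zero ideal `I` of a `K`-algebra `B`, the map `K ⊕ I → B`;
* `SqZ.factor`    : a ring map `R → B` congruent to `ε : R → K` modulo `I` factors through `K ⊕ I`.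
-/
import Mathlib

set_option autoImplicit false
set_option linter.unusedSectionVars false

universe u

namespace Fermat.Agent.S26.H685

/-- The trivial square-zero extension `K ⊕ V` of a commutative ring by a module (own copy:
only `[Module K V]` is needed). -/
@[ext] structure SqZ (K V : Type u) where
  fst : K
  snd : V

namespace SqZ

section Ring

variable {K V : Type u} [CommRing K] [AddCommGroup V] [Module K V]

instance : Zero (SqZ K V) := ⟨⟨0, 0⟩⟩
instance : One (SqZ K V) := ⟨⟨1, 0⟩⟩
instance : Add (SqZ K V) := ⟨fun x y => ⟨x.fst + y.fst, x.snd + y.snd⟩⟩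
instance : Neg (SqZ K V) := ⟨fun x => ⟨-x.fst, -x.snd⟩⟩
instance : Sub (SqZ K V) := ⟨fun x y => ⟨x.fst - y.fst, x.snd - y.snd⟩⟩
instance : Mul (SqZ K V) := ⟨fun x y => ⟨x.fst * y.fst, x.fst • y.snd + y.fst • x.snd⟩⟩
instance : SMul K (SqZ K V) := ⟨fun a x => ⟨a * x.fst, a • x.snd⟩⟩

@[simp] theorem fst_zero : (0 : SqZ K V).fst = 0 := rfl
@[simp] theorem snd_zero : (0 : SqZ K V).snd = 0 := rfl
@[simp] theorem fst_one : (1 : SqZ K V).fst = 1 := rfl
@[simp] theorem snd_one : (1 : SqZ K V).snd = 0 := rfl
@[simp] theorem fst_add (x y : SqZ K V) : (x + y).fst = x.fst + y.fst := rfl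
@[simp] theorem snd_add (x y : SqZ K V) : (x + y).snd = x.snd + y.snd := rfl
@[simp] theorem fst_neg (x : SqZ K V) : (-x).fst = -x.fst := rfl
@[simp] theorem snd_neg (x : SqZ K V) : (-x).snd = -x.snd := rfl
@[simp] theorem fst_sub (x y : SqZ K V) : (x - y).fst = x.fst - y.fst := rfl
@[simp] theorem snd_sub (x y : SqZ K V) : (x - y).snd = x.snd - y.snd := rfl
@[simp] theorem fst_mul (x y : SqZ K V) : (x * y).fst = x.fst * y.fst := rfl
@[simp] theorem snd_mul (x y : SqZ K V) : (x * y).snd = x.fst • y.snd + y.fst • x.snd := rfl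
@[simp] theorem fst_smul (a : K) (x : SqZ K V) : (a • x).fst = a * x.fst := rfl
@[simp] theorem snd_smul (a : K) (x : SqZ K V) : (a • x).snd = a • x.snd := rfl

instance : CommRing (SqZ K V) where
  add_assoc x y z := by ext <;> simp [add_assoc]
  zero_add x := by ext <;> simp
  add_zero x := by ext <;> simp
  add_comm x y := by ext <;> simp [add_comm]
  nsmul := nsmulRec
  zsmul := zsmulRec
  neg_add_cancel x := by ext <;> simp
  sub_eq_add_neg x y := by ext <;> simp [sub_eq_add_neg]
  left_distrib x y z := by
    ext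
    · simp [mul_add]
    · simp only [snd_mul, snd_add, fst_add, smul_add, add_smul]; abel
  right_distrib x y z := by
    ext
    · simp [add_mul]
    · simp only [snd_mul, snd_add, fst_add, smul_add, add_smul]; abel
  zero_mul x := by ext <;> simp
  mul_zero x := by ext <;> simp
  mul_assoc x y z := by
    ext
    · simp [mul_assoc]
    · simp only [snd_mul, fst_mul, smul_add, mul_smul]
      rw [smul_comm z.fst x.fst, smul_comm z.fst y.fst]
      abel
  one_mul x := by ext <;> simp
  mul_one x := by ext <;> simp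
  mul_comm x y := by
    ext
    · simp [mul_comm]
    · simp [add_comm]

instance : Algebra K (SqZ K V) where
  algebraMap :=
    { toFun := fun a => ⟨a, 0⟩
      map_one' := rfl
      map_mul' := fun a b => by ext <;> simp
      map_zero' := rfl
      map_add' := fun a b => by ext <;> simp }
  commutes' a x := by ext <;> simp [mul_comm]
  smul_def' a x := by ext <;> simp

@[simp] theorem fst_algebraMap (a : K) : (algebraMap K (SqZ K V) a).fst = a := rfl
@[simp] theorem snd_algebraMap (a : K) : (algebraMap K (SqZ K V) a).snd = 0 := rfl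

end Ring

section Maps

variable {K : Type u} [CommRing K] {V V' V'' : Type u} [AddCommGroup V] [Module K V]
  [AddCommGroup V'] [Module K V'] [AddCommGroup V''] [Module K V'']

/-- The augmentation `K ⊕ V → K`. -/
def fstHom : SqZ K V →ₐ[K] K where
  toFun := fst
  map_one' := rfl
  map_mul' _ _ := rfl
  map_zero' := rfl
  map_add' _ _ := rfl
  commutes' _ := rfl

@[simp] theorem fstHom_apply (x : SqZ K V) : fstHom x = x.fst := rfl

/-- Functoriality of `K ⊕ V` in `V`. -/
def map (g : V →ₗ[K] V') : SqZ K V →ₐ[K] SqZ K V' where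
  toFun x := ⟨x.fst, g x.snd⟩
  map_one' := by ext <;> simp
  map_mul' x y := by ext <;> simp
  map_zero' := by ext <;> simp
  map_add' x y := by ext <;> simp
  commutes' a := by ext <;> simp

@[simp] theorem fst_map (g : V →ₗ[K] V') (x : SqZ K V) : (map g x).fst = x.fst := rfl
@[simp] theorem snd_map (g : V →ₗ[K] V') (x : SqZ K V) : (map g x).snd = g x.snd := rfl

theorem map_id : map (LinearMap.id : V →ₗ[K] V) = AlgHom.id K (SqZ K V) := by
  ext x <;> simp

theorem map_comp (h : V' →ₗ[K] V'') (g : V →ₗ[K] V') :
    map (h.comp g) = (map h).comp (map g) := by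
  ext x <;> simp

theorem map_zero_eq : map (0 : V →ₗ[K] V') = (Algebra.ofId K (SqZ K V')).comp fstHom := by
  ext x <;> simp [Algebra.ofId_apply]

/-- `K ⊕ (V × V')` embeds into `(K ⊕ V) × (K ⊕ V')`. -/
theorem ext_prod {x y : SqZ K (V × V')}
    (h1 : map (LinearMap.fst K V V') x = map (LinearMap.fst K V V') y)
    (h2 : map (LinearMap.snd K V V') x = map (LinearMap.snd K V V') y) : x = y := by
  have a1 := congrArg SqZ.fst h1
  have a2 := congrArg SqZ.snd h1
  have a3 := congrArg SqZ.snd h2
  simp only [fst_map, snd_map, LinearMap.fst_apply, LinearMap.snd_apply] at a1 a2 a3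
  exact SqZ.ext a1 (Prod.ext a2 a3)

/-- The kernel of the augmentation has square zero. -/
theorem mul_eq_zero_of_fst {x y : SqZ K V} (hx : x.fst = 0) (hy : y.fst = 0) : x * y = 0 := by
  ext <;> simp [hx, hy]

theorem ker_fstHom_le_nilradical : RingHom.ker (fstHom : SqZ K V →ₐ[K] K) ≤ nilradical (SqZ K V) := by
  intro x hx
  have hx' : x.fst = 0 := hx
  exact ⟨2, by rw [pow_two]; exact mul_eq_zero_of_fst hx' hx'⟩

end Maps

section Ideal

variable {K : Type u} [CommRing K] {B : Type u} [CommRing B] [Algebra K B]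
  (I : Ideal B) (hI : I ^ 2 = ⊥)
include hI

theorem mul_eq_zero_of_mem {a b : B} (ha : a ∈ I) (hb : b ∈ I) : a * b = 0 := by
  have h : a * b ∈ I ^ 2 := by rw [pow_two]; exact Ideal.mul_mem_mul ha hb
  rwa [hI] at h

/-- The comparison map `K ⊕ I → B`, `(a, x) ↦ a + x`, for a square-zero ideal `I`. -/
def toRing : SqZ K I →ₐ[K] B where
  toFun x := algebraMap K B x.fst + (x.snd : B)
  map_one' := by simp
  map_mul' x y := by
    simp only [fst_mul, snd_mul, map_mul, Submodule.coe_add, Submodule.coe_smul_of_tower]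
    have h := mul_eq_zero_of_mem I hI x.snd.2 y.snd.2
    rw [Algebra.smul_def, Algebra.smul_def]
    linear_combination -h
  map_zero' := by simp
  map_add' x y := by simp only [fst_add, snd_add, map_add, Submodule.coe_add]; ring
  commutes' a := by simp

@[simp] theorem toRing_apply (x : SqZ K I) :
    toRing I hI x = algebraMap K B x.fst + (x.snd : B) := rfl

variable {R : Type u} [CommRing R] (ψ : R →+* B) (ε : R →+* K)
  (hψ : ∀ r, ψ r - algebraMap K B (ε r) ∈ I)

/-- A ring map `ψ : R → B` congruent to `ε : R → K` modulo the square-zero ideal `I` factors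
through `K ⊕ I`. -/
def factor : R →+* SqZ K I where
  toFun r := ⟨ε r, ⟨ψ r - algebraMap K B (ε r), hψ r⟩⟩
  map_one' := by ext <;> simp
  map_mul' r s := by
    ext
    · simp
    · simp only [snd_mul, Submodule.coe_add, Submodule.coe_smul_of_tower, map_mul]
      have h := mul_eq_zero_of_mem I hI (hψ r) (hψ s)
      rw [Algebra.smul_def, Algebra.smul_def]
      linear_combination h
  map_zero' := by ext <;> simp
  map_add' r s := by
    ext
    · simp
    · simp only [snd_add, Submodule.coe_add, map_add]; ring

@[simp] theorem fst_factor (r : R) : (factor I hI ψ ε hψ r).fst = ε r := rfl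

@[simp] theorem toRing_factor (r : R) : toRing I hI (factor I hI ψ ε hψ r) = ψ r := by
  simp [factor]

end Ideal

end SqZ

end Fermat.Agent.S26.H685
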