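/-
S26 (torsion of abelian varieties), block SOFT, leaf S3 (helper685), route L
(unique infinitesimal lifting; no differentials, no local rings, no flatness argument).

Main result: `etale_schemeNsmul` -- on a smooth commutative group scheme `A` over a field `K`
(group law given by the Prelude's `RelativeGroupLaw`), `[n]` is étale when `n ∈ Kˣ`.

Steps (all for `K`-algebras `B`, points `GPt L B` = the group `A(B)`):
* `GPt.ofRingHom`, `GPt.eq_ofRingHom`: points landing in an affine open `W` = ring maps `Γ(A,W) → B`;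
* `IsInf.map_add` (Eckmann–Hilton): on infinitesimal points of `K ⊕ V` the group law is the
  addition, so `ν ^ n = G(n • id) ν` (`IsInf.map_nsmul`), and `IsInf.existsUnique_pow`;
* `existsUnique_pow_of_map_eq_one`: `ker (A(B) → A(B/I))` is uniquely `n`-divisible (`I² = 0`);
* `exists_lift`: lifts exist (`Γ(A,V)` is a smooth `K`-algebra);
* `existsUnique_lift_pow`, `existsUnique_ringHom_lift`: unique lifting for `[n]`;
* `formallyEtale_appLE`, `finitePresentation_appLE`, `etale_schemeNsmul`.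
-/
import Mathlib
import Fermat.Prelude.Def_GoodReductionJacobian_RelativeGroupLawKernel
import Fermat.Agent.S26.H685.SqZero

set_option autoImplicit false
set_option linter.unusedSectionVars false
set_option linter.style.haveILetI false
universe u
open CategoryTheory CategoryTheory.Limits AlgebraicGeometry NeronModelInfra GoodReductionJacobian

namespace Fermat.Agent.S26.H685

section PT

variable {A : Scheme.{u}} {W : A.Opens} (hW : IsAffineOpen W)

/-- A morphism from an affine scheme landing in the affine open `W` comes from a ring map. -/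
theorem exists_ringHom_of_preimage_eq_top {B : CommRingCat.{u}} (x : Spec B ⟶ A)
    (hx : x ⁻¹ᵁ W = ⊤) : ∃ φ : Γ(A, W) ⟶ B, Spec.map φ ≫ hW.fromSpec = x := by
  haveI := hW.isOpenImmersion_fromSpec
  have hr : Set.range x ⊆ Set.range hW.fromSpec := by
    rw [hW.range_fromSpec]
    rintro _ ⟨p, rfl⟩
    have : p ∈ x ⁻¹ᵁ W := by rw [hx]; trivial
    exact this
  refine ⟨Spec.preimage (IsOpenImmersion.lift hW.fromSpec x hr), ?_⟩
  rw [Spec.map_preimage, IsOpenImmersion.lift_fac]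

/-- The ring map of a point landing in `W` is unique. -/
theorem ringHom_ext_of_fromSpec {B : CommRingCat.{u}} {φ φ' : Γ(A, W) ⟶ B}
    (h : Spec.map φ ≫ hW.fromSpec = Spec.map φ' ≫ hW.fromSpec) : φ = φ' := by
  haveI := hW.isOpenImmersion_fromSpec
  exact Spec.map_injective ((cancel_mono hW.fromSpec).mp h)

theorem preimage_fromSpec_comp {B : CommRingCat.{u}} (φ : Γ(A, W) ⟶ B) :
    (Spec.map φ ≫ hW.fromSpec) ⁻¹ᵁ W = ⊤ := by
  ext p
  simp only [TopologicalSpace.Opens.coe_top, Set.mem_univ, iff_true]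
  show (Spec.map φ ≫ hW.fromSpec) p ∈ (W : Set A)
  rw [← hW.range_fromSpec]
  exact ⟨Spec.map φ p, rfl⟩

end PT

section Nilpotent

/-- The spectrum of a surjection with nilpotent kernel is surjective. -/
theorem specMap_surjective_of_nilpotent {B B₀ : CommRingCat.{u}} (q : B ⟶ B₀)
    (hq : Function.Surjective q.hom) (hk : RingHom.ker q.hom ≤ nilradical B) :
    Function.Surjective (Spec.map q) := by
  intro p
  have h1 : Set.range (PrimeSpectrum.comap q.hom) = PrimeSpectrum.zeroLocus (RingHom.ker q.hom) :=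
    _root_.range_comap_of_surjective _ _ hq
  have hp : (show PrimeSpectrum B from p) ∈
      PrimeSpectrum.zeroLocus ((RingHom.ker q.hom : Ideal B) : Set B) := by
    rw [PrimeSpectrum.mem_zeroLocus]
    intro b hb
    have hb' : b ∈ nilradical B := hk hb
    rw [nilradical_eq_sInf, Ideal.mem_sInf] at hb'
    exact hb' (show PrimeSpectrum B from p).2
  rw [← h1] at hp
  obtain ⟨p₀, hp₀⟩ := hp
  exact ⟨p₀, hp₀⟩

/-- A point of `Spec B` lands in an open `W` as soon as its restriction to a nilpotent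
thickening does. -/
theorem preimage_eq_top_of_nilpotent {A : Scheme.{u}} {B B₀ : CommRingCat.{u}} (q : B ⟶ B₀)
    (hq : Function.Surjective q.hom) (hk : RingHom.ker q.hom ≤ nilradical B)
    (x : Spec B ⟶ A) (W : A.Opens) (h : (Spec.map q ≫ x) ⁻¹ᵁ W = ⊤) : x ⁻¹ᵁ W = ⊤ := by
  ext p
  simp only [TopologicalSpace.Opens.coe_top, Set.mem_univ, iff_true]
  obtain ⟨p₀, rfl⟩ := specMap_surjective_of_nilpotent q hq hk p
  have : p₀ ∈ (Spec.map q ≫ x) ⁻¹ᵁ W := by rw [h]; trivial
  exact this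

end Nilpotent


noncomputable section

variable {K : Type u} [Field K] {A : Scheme.{u}} {f : A ⟶ Spec (CommRingCat.of K)}

/-! ## Affine test schemes and the group of points -/

/-- The structure morphism of the affine `K`-scheme `Spec B`. -/
def specStr (K : Type u) [Field K] (B : Type u) [CommRing B] [Algebra K B] :
    Spec (CommRingCat.of B) ⟶ Spec (CommRingCat.of K) :=
  Spec.map (CommRingCat.ofHom (algebraMap K B))

/-- The morphism `Spec B' ⟶ Spec B` of a `K`-algebra map `B → B'`. -/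
def specAlgMap {B B' : Type u} [CommRing B] [Algebra K B] [CommRing B'] [Algebra K B']
    (ψ : B →ₐ[K] B') : Spec (CommRingCat.of B') ⟶ Spec (CommRingCat.of B) :=
  Spec.map (CommRingCat.ofHom ψ.toRingHom)

theorem specAlgMap_str {B B' : Type u} [CommRing B] [Algebra K B] [CommRing B'] [Algebra K B']
    (ψ : B →ₐ[K] B') : specAlgMap ψ ≫ specStr K B = specStr K B' := by
  rw [specAlgMap, specStr, specStr, ← Spec.map_comp]
  congr 1
  ext a
  exact ψ.commutes a

theorem specAlgMap_id (B : Type u) [CommRing B] [Algebra K B] :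
    specAlgMap (AlgHom.id K B) = 𝟙 _ := by
  rw [specAlgMap]
  exact Spec.map_id _

theorem specAlgMap_comp {B B' B'' : Type u} [CommRing B] [Algebra K B] [CommRing B']
    [Algebra K B'] [CommRing B''] [Algebra K B''] (ψ' : B' →ₐ[K] B'') (ψ : B →ₐ[K] B') :
    specAlgMap (ψ'.comp ψ) = specAlgMap ψ' ≫ specAlgMap ψ := by
  rw [specAlgMap, specAlgMap, specAlgMap, ← Spec.map_comp]
  rfl

/-- The group of `B`-valued points of `A` (type synonym carrying the group law `L`). -/
def GPt (L : RelativeGroupLaw K f) (B : Type u) [CommRing B] [Algebra K B] : Type u :=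
  SchemeHomOver (specStr K B) f

variable (L : RelativeGroupLaw K f)

instance gptGroup (B : Type u) [CommRing B] [Algebra K B] : Group (GPt L B) :=
  L.pointGroup (specStr K B)

namespace GPt

variable {L}
variable {B B' B'' : Type u} [CommRing B] [Algebra K B] [CommRing B'] [Algebra K B']
  [CommRing B''] [Algebra K B'']

/-- The underlying morphism of a point. -/
def hom (x : GPt L B) : Spec (CommRingCat.of B) ⟶ A := x.1

theorem hom_comp_str (x : GPt L B) : x.hom ≫ f = specStr K B := x.2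

@[ext] theorem ext {x y : GPt L B} (h : x.hom = y.hom) : x = y := Subtype.ext h

/-- Constructor. -/
def mk (φ : Spec (CommRingCat.of B) ⟶ A) (h : φ ≫ f = specStr K B) : GPt L B := ⟨φ, h⟩

@[simp] theorem hom_mk (φ : Spec (CommRingCat.of B) ⟶ A) (h : φ ≫ f = specStr K B) :
    (mk (L := L) φ h).hom = φ := rfl

theorem mul_def (x y : GPt L B) : x * y = L.mul (specStr K B) x y := rfl
theorem one_def : (1 : GPt L B) = L.one (specStr K B) := rfl

theorem pow_eq_nsmul (x : GPt L B) (n : ℕ) : x ^ n = L.nsmul (specStr K B) n x := by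
  induction n with
  | zero => rfl
  | succ n ih => rw [pow_succ, ih]; rfl

variable (L) in
/-- Functoriality of the group of points in the `K`-algebra. -/
def map (ψ : B →ₐ[K] B') : GPt L B →* GPt L B' where
  toFun x := schemeHomOverComp (specAlgMap ψ) (specAlgMap_str ψ) x
  map_one' := L.one_natural _ _ _ _
  map_mul' x y := L.mul_natural _ _ _ _ x y

@[simp] theorem hom_map (ψ : B →ₐ[K] B') (x : GPt L B) :
    (map L ψ x).hom = specAlgMap ψ ≫ x.hom := rfl

theorem map_id (x : GPt L B) : map L (AlgHom.id K B) x = x := by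
  ext
  rw [hom_map, specAlgMap_id, Category.id_comp]

theorem map_map (ψ' : B' →ₐ[K] B'') (ψ : B →ₐ[K] B') (x : GPt L B) :
    map L ψ' (map L ψ x) = map L (ψ'.comp ψ) x := by
  ext
  rw [hom_map, hom_map, hom_map, specAlgMap_comp, Category.assoc]

end GPt


/-! ## Infinitesimal points -/

section Inf

variable (L : RelativeGroupLaw K f)

/-- The zero section of `A`. -/
def zeroSec : Spec (CommRingCat.of K) ⟶ A := (L.one (𝟙 (Spec (CommRingCat.of K)))).1

theorem zeroSec_comp : zeroSec L ≫ f = 𝟙 _ := (L.one (𝟙 (Spec (CommRingCat.of K)))).2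

variable {L}
variable {B B' : Type u} [CommRing B] [Algebra K B] [CommRing B'] [Algebra K B']

theorem GPt.one_hom : (1 : GPt L B).hom = specStr K B ≫ zeroSec L := by
  have h := L.one_natural (𝟙 (Spec (CommRingCat.of K))) (specStr K B) (specStr K B)
    (Category.comp_id _)
  exact (congrArg Subtype.val h).symm

theorem GPt.eq_one_iff (x : GPt L B) : x = 1 ↔ x.hom = specStr K B ≫ zeroSec L := by
  rw [← GPt.one_hom]
  exact ⟨fun h => by rw [h], fun h => GPt.ext h⟩

variable {W : A.Opens} (hW : IsAffineOpen W) (hW0 : zeroSec L ⁻¹ᵁ W = ⊤)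

include hW0 in
theorem GPt.one_preimage : (1 : GPt L B).hom ⁻¹ᵁ W = ⊤ := by
  rw [GPt.one_hom, Scheme.Hom.comp_preimage, hW0]
  rfl

include hW0 in
/-- A point which is trivial modulo a nilpotent ideal lands in every open neighbourhood of
the zero section. -/
theorem GPt.preimage_eq_top_of_map_eq_one (q : B →ₐ[K] B') (hq : Function.Surjective q)
    (hk : RingHom.ker q.toRingHom ≤ nilradical B) (x : GPt L B) (hx : GPt.map L q x = 1) :
    x.hom ⁻¹ᵁ W = ⊤ := by
  refine preimage_eq_top_of_nilpotent (CommRingCat.ofHom q.toRingHom) hq hk x.hom W ?_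
  have h := GPt.one_preimage (L := L) (B := B') hW0
  rw [← hx] at h
  exact h

end Inf


/-! ## Points landing in an affine open, as ring maps -/

section RingPts

variable {L : RelativeGroupLaw K f}
variable {B B' : Type u} [CommRing B] [Algebra K B] [CommRing B'] [Algebra K B']
variable {W : A.Opens} (hW : IsAffineOpen W)

/-- The structure map `K → Γ(A, W)`. -/
def sigma (f : A ⟶ Spec (CommRingCat.of K)) : CommRingCat.of K ⟶ Γ(A, W) :=
  Spec.preimage (hW.fromSpec ≫ f)

theorem specMap_sigma : Spec.map (sigma hW f) = hW.fromSpec ≫ f := Spec.map_preimage _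

/-- The ring map of a point landing in `W`. -/
theorem GPt.exists_ringHom (x : GPt L B) (hx : x.hom ⁻¹ᵁ W = ⊤) :
    ∃ φ : Γ(A, W) →+* B, Spec.map (CommRingCat.ofHom φ) ≫ hW.fromSpec = x.hom ∧
      ∀ a : K, φ ((sigma hW f).hom a) = algebraMap K B a := by
  obtain ⟨φ, hφ⟩ := exists_ringHom_of_preimage_eq_top hW x.hom hx
  refine ⟨φ.hom, hφ, fun a => ?_⟩
  have h1 : Spec.map (sigma hW f ≫ φ) = Spec.map (CommRingCat.ofHom (algebraMap K B)) := by
    rw [Spec.map_comp, specMap_sigma, ← Category.assoc, hφ]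
    exact x.hom_comp_str
  have h2 := Spec.map_injective h1
  exact congrArg (fun g : CommRingCat.of K ⟶ CommRingCat.of B => g.hom a) h2

/-- The point of a ring map `Γ(A, W) → B` compatible with the `K`-structures. -/
def GPt.ofRingHom (L : RelativeGroupLaw K f) (φ : Γ(A, W) →+* B)
    (hφ : ∀ a : K, φ ((sigma hW f).hom a) = algebraMap K B a) : GPt L B :=
  GPt.mk (Spec.map (CommRingCat.ofHom φ) ≫ hW.fromSpec) (by
    rw [Category.assoc, ← specMap_sigma, ← Spec.map_comp, specStr]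
    congr 1
    ext a
    exact hφ a)

@[simp] theorem GPt.ofRingHom_hom (φ : Γ(A, W) →+* B)
    (hφ : ∀ a : K, φ ((sigma hW f).hom a) = algebraMap K B a) :
    (GPt.ofRingHom hW L φ hφ).hom = Spec.map (CommRingCat.ofHom φ) ≫ hW.fromSpec := rfl

theorem GPt.map_ofRingHom (ψ : B →ₐ[K] B') (φ : Γ(A, W) →+* B)
    (hφ : ∀ a : K, φ ((sigma hW f).hom a) = algebraMap K B a) :
    GPt.map L ψ (GPt.ofRingHom hW L φ hφ) =
      GPt.ofRingHom hW L (ψ.toRingHom.comp φ) (fun a => by
        rw [RingHom.comp_apply, hφ]; exact ψ.commutes a) := by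
  ext
  rw [GPt.hom_map, GPt.ofRingHom_hom, GPt.ofRingHom_hom, specAlgMap, ← Category.assoc,
    ← Spec.map_comp]
  rfl

theorem GPt.ofRingHom_injective {φ φ' : Γ(A, W) →+* B}
    {hφ : ∀ a : K, φ ((sigma hW f).hom a) = algebraMap K B a}
    {hφ' : ∀ a : K, φ' ((sigma hW f).hom a) = algebraMap K B a}
    (h : GPt.ofRingHom hW L φ hφ = GPt.ofRingHom hW L φ' hφ') : φ = φ' := by
  have h1 := congrArg GPt.hom h
  rw [GPt.ofRingHom_hom, GPt.ofRingHom_hom] at h1
  have h2 := ringHom_ext_of_fromSpec hW h1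
  exact congrArg CommRingCat.Hom.hom h2

theorem GPt.eq_ofRingHom (x : GPt L B) (hx : x.hom ⁻¹ᵁ W = ⊤) :
    ∃ (φ : Γ(A, W) →+* B) (hφ : ∀ a : K, φ ((sigma hW f).hom a) = algebraMap K B a),
      x = GPt.ofRingHom hW L φ hφ := by
  obtain ⟨φ, h1, h2⟩ := GPt.exists_ringHom hW x hx
  exact ⟨φ, h2, GPt.ext h1.symm⟩

end RingPts


/-! ## Infinitesimal points of `K ⊕ V`: the group law is the addition -/

section EH

variable {L : RelativeGroupLaw K f}
variable {V V' V'' : Type u} [AddCommGroup V] [Module K V] [AddCommGroup V'] [Module K V']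
  [AddCommGroup V''] [Module K V'']

/-- A `K ⊕ V`-valued point is *infinitesimal* if it reduces to the zero section. -/
def IsInf (ν : GPt L (SqZ K V)) : Prop := GPt.map L SqZ.fstHom ν = 1

theorem SqZ.fstHom_comp_map (g : V →ₗ[K] V') :
    (SqZ.fstHom : SqZ K V' →ₐ[K] K).comp (SqZ.map g) = SqZ.fstHom := by
  ext x
  rfl

theorem SqZ.fstHom_surjective : Function.Surjective (SqZ.fstHom : SqZ K V →ₐ[K] K) :=
  fun a => ⟨⟨a, 0⟩, rfl⟩

namespace IsInf

variable {ν μ : GPt L (SqZ K V)}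

theorem one : IsInf (1 : GPt L (SqZ K V)) := map_one _

theorem mul (hν : IsInf ν) (hμ : IsInf μ) : IsInf (ν * μ) := by
  unfold IsInf at *
  rw [map_mul, hν, hμ, mul_one]

theorem pow (hν : IsInf ν) (n : ℕ) : IsInf (ν ^ n) := by
  unfold IsInf at *
  rw [map_pow, hν, one_pow]

theorem map (g : V →ₗ[K] V') (hν : IsInf ν) : IsInf (GPt.map L (SqZ.map g) ν) := by
  unfold IsInf at *
  rw [GPt.map_map, SqZ.fstHom_comp_map]
  exact hν

theorem map_zero (hν : IsInf ν) : GPt.map L (SqZ.map (0 : V →ₗ[K] V')) ν = 1 := by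
  rw [SqZ.map_zero_eq, ← GPt.map_map, hν, map_one]

variable {W : A.Opens} (hW : IsAffineOpen W) (hW0 : zeroSec L ⁻¹ᵁ W = ⊤)

include hW0 in
theorem preimage (hν : IsInf ν) : ν.hom ⁻¹ᵁ W = ⊤ :=
  GPt.preimage_eq_top_of_map_eq_one hW0 SqZ.fstHom SqZ.fstHom_surjective
    SqZ.ker_fstHom_le_nilradical ν hν

include hW hW0 in
/-- Infinitesimal points of `K ⊕ (V × V')` are determined by their two projections. -/
theorem ext_prod {x y : GPt L (SqZ K (V × V'))} (hx : IsInf x) (hy : IsInf y)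
    (h1 : GPt.map L (SqZ.map (LinearMap.fst K V V')) x =
      GPt.map L (SqZ.map (LinearMap.fst K V V')) y)
    (h2 : GPt.map L (SqZ.map (LinearMap.snd K V V')) x =
      GPt.map L (SqZ.map (LinearMap.snd K V V')) y) : x = y := by
  obtain ⟨φ, hφ, rfl⟩ := GPt.eq_ofRingHom hW x (hx.preimage hW0)
  obtain ⟨φ', hφ', rfl⟩ := GPt.eq_ofRingHom hW y (hy.preimage hW0)
  rw [GPt.map_ofRingHom, GPt.map_ofRingHom] at h1 h2
  have e1 := GPt.ofRingHom_injective hW h1
  have e2 := GPt.ofRingHom_injective hW h2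
  have : φ = φ' := RingHom.ext fun r => SqZ.ext_prod
    (congrArg (fun g : _ →+* _ => g r) e1) (congrArg (fun g : _ →+* _ => g r) e2)
  subst this
  rfl

include hW hW0 in
theorem map_prod (g₁ : V →ₗ[K] V') (g₂ : V →ₗ[K] V'') (hν : IsInf ν) :
    GPt.map L (SqZ.map (g₁.prod g₂)) ν =
      GPt.map L (SqZ.map (LinearMap.inl K V' V'')) (GPt.map L (SqZ.map g₁) ν) *
        GPt.map L (SqZ.map (LinearMap.inr K V' V'')) (GPt.map L (SqZ.map g₂) ν) := by
  refine ext_prod hW hW0 (hν.map _) (((hν.map _).map _).mul ((hν.map _).map _)) ?_ ?_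
  · rw [map_mul, GPt.map_map, GPt.map_map, GPt.map_map, GPt.map_map, GPt.map_map,
      ← SqZ.map_comp, ← SqZ.map_comp, ← SqZ.map_comp, ← SqZ.map_comp, ← SqZ.map_comp]
    have a1 : (LinearMap.fst K V' V'').comp (g₁.prod g₂) = g₁ := by ext; simp
    have a2 : ((LinearMap.fst K V' V'').comp (LinearMap.inl K V' V'')).comp g₁ = g₁ := by
      ext; simp
    have a3 : ((LinearMap.fst K V' V'').comp (LinearMap.inr K V' V'')).comp g₂ = 0 := by
      ext; simp
    rw [a1, a2, a3, hν.map_zero, mul_one]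
  · rw [map_mul, GPt.map_map, GPt.map_map, GPt.map_map, GPt.map_map, GPt.map_map,
      ← SqZ.map_comp, ← SqZ.map_comp, ← SqZ.map_comp, ← SqZ.map_comp, ← SqZ.map_comp]
    have a1 : (LinearMap.snd K V' V'').comp (g₁.prod g₂) = g₂ := by ext; simp
    have a2 : ((LinearMap.snd K V' V'').comp (LinearMap.inl K V' V'')).comp g₁ = 0 := by
      ext; simp
    have a3 : ((LinearMap.snd K V' V'').comp (LinearMap.inr K V' V'')).comp g₂ = g₂ := by
      ext; simp
    rw [a1, a2, a3, hν.map_zero, one_mul]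

include hW hW0 in
/-- **The group law on infinitesimal points is the addition**: `g ↦ G(g) ν` is additive. -/
theorem map_add (g₁ g₂ : V →ₗ[K] V') (hν : IsInf ν) :
    GPt.map L (SqZ.map (g₁ + g₂)) ν =
      GPt.map L (SqZ.map g₁) ν * GPt.map L (SqZ.map g₂) ν := by
  have h : g₁ + g₂ = (LinearMap.coprod LinearMap.id LinearMap.id).comp (g₁.prod g₂) := by
    ext v; simp
  have a1 : (LinearMap.coprod LinearMap.id LinearMap.id).comp (LinearMap.inl K V' V') =
      LinearMap.id := by ext; simp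
  have a2 : (LinearMap.coprod LinearMap.id LinearMap.id).comp (LinearMap.inr K V' V') =
      LinearMap.id := by ext; simp
  have b1 : ∀ x : GPt L (SqZ K V'),
      GPt.map L (SqZ.map (LinearMap.coprod LinearMap.id LinearMap.id))
        (GPt.map L (SqZ.map (LinearMap.inl K V' V')) x) = x := fun x => by
    rw [GPt.map_map, ← SqZ.map_comp, a1, SqZ.map_id, GPt.map_id]
  have b2 : ∀ x : GPt L (SqZ K V'),
      GPt.map L (SqZ.map (LinearMap.coprod LinearMap.id LinearMap.id))
        (GPt.map L (SqZ.map (LinearMap.inr K V' V')) x) = x := fun x => by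
    rw [GPt.map_map, ← SqZ.map_comp, a2, SqZ.map_id, GPt.map_id]
  rw [h, SqZ.map_comp, ← GPt.map_map, map_prod hW hW0 g₁ g₂ hν, map_mul, b1, b2]

include hW hW0 in
theorem map_nsmul (n : ℕ) (hν : IsInf ν) :
    GPt.map L (SqZ.map (n • (LinearMap.id : V →ₗ[K] V))) ν = ν ^ n := by
  induction n with
  | zero => rw [zero_smul, hν.map_zero, pow_zero]
  | succ n ih =>
    rw [succ_nsmul, map_add hW hW0 _ _ hν, ih, SqZ.map_id, GPt.map_id, pow_succ]

include hW hW0 in
/-- Infinitesimal points are uniquely `n`-divisible when `n` is invertible in `K`. -/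
theorem existsUnique_pow (n : ℕ) (hn : (n : K) ≠ 0) (hν : IsInf ν) :
    ∃! μ : GPt L (SqZ K V), IsInf μ ∧ μ ^ n = ν := by
  have e1 : ((n : K)⁻¹ • (LinearMap.id : V →ₗ[K] V)).comp (n • (LinearMap.id : V →ₗ[K] V)) =
      LinearMap.id := by
    ext v
    simp only [LinearMap.comp_apply, LinearMap.smul_apply, LinearMap.id_apply]
    rw [← Nat.cast_smul_eq_nsmul K n v, smul_smul, inv_mul_cancel₀ hn, one_smul]
  have e2 : (n • (LinearMap.id : V →ₗ[K] V)).comp ((n : K)⁻¹ • (LinearMap.id : V →ₗ[K] V)) =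
      LinearMap.id := by
    ext v
    simp only [LinearMap.comp_apply, LinearMap.smul_apply, LinearMap.id_apply]
    rw [← Nat.cast_smul_eq_nsmul K n, smul_smul, mul_inv_cancel₀ hn, one_smul]
  refine ⟨GPt.map L (SqZ.map ((n : K)⁻¹ • (LinearMap.id : V →ₗ[K] V))) ν, ⟨hν.map _, ?_⟩, ?_⟩
  · rw [← map_nsmul hW hW0 n (hν.map _), GPt.map_map, ← SqZ.map_comp, e2, SqZ.map_id,
      GPt.map_id]
  · rintro μ ⟨hμ, rfl⟩
    rw [← map_nsmul hW hW0 n hμ, GPt.map_map, ← SqZ.map_comp, e1, SqZ.map_id, GPt.map_id]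

end IsInf

end EH


/-! ## Square-zero thickenings -/

section Thick

variable {L : RelativeGroupLaw K f}
variable {B : Type u} [CommRing B] [Algebra K B] (I : Ideal B) (hI : I ^ 2 = ⊥)
variable {W : A.Opens} (hW : IsAffineOpen W) (hW0 : zeroSec L ⁻¹ᵁ W = ⊤)

theorem ker_mk_le_nilradical (hI : I ^ 2 = ⊥) :
    RingHom.ker (Ideal.Quotient.mkₐ K I).toRingHom ≤ nilradical B := by
  intro b hb
  have hb' : b ∈ I := by
    have : (Ideal.Quotient.mk I) b = 0 := hb
    exact Ideal.Quotient.eq_zero_iff_mem.mp this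
  exact ⟨2, by rw [pow_two]; exact SqZ.mul_eq_zero_of_mem I hI hb' hb'⟩

theorem mk_comp_toRing :
    (Ideal.Quotient.mkₐ K I).comp (SqZ.toRing I hI) =
      (Algebra.ofId K (B ⧸ I)).comp SqZ.fstHom := by
  ext x
  show Ideal.Quotient.mk I (algebraMap K B x.fst + (x.snd : B)) = algebraMap K (B ⧸ I) x.fst
  rw [map_add, Ideal.Quotient.eq_zero_iff_mem.mpr x.snd.2, add_zero]
  rfl

include hW hW0 in
/-- The ring map of the zero section. -/
theorem exists_zeroRingHom :
    ∃ (ε : Γ(A, W) →+* K) (hε : ∀ a : K, ε ((sigma hW f).hom a) = algebraMap K K a),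
      (1 : GPt L K) = GPt.ofRingHom hW L ε hε :=
  GPt.eq_ofRingHom hW (1 : GPt L K) (GPt.one_preimage hW0)

theorem one_eq_ofRingHom {ε : Γ(A, W) →+* K}
    {hε : ∀ a : K, ε ((sigma hW f).hom a) = algebraMap K K a}
    (h1 : (1 : GPt L K) = GPt.ofRingHom hW L ε hε) (B' : Type u) [CommRing B'] [Algebra K B'] :
    (1 : GPt L B') = GPt.ofRingHom hW L ((algebraMap K B').comp ε) (fun a => by
      rw [RingHom.comp_apply, hε]; rfl) := by
  have h2 : (1 : GPt L B') = GPt.map L (Algebra.ofId K B') 1 := (map_one _).symm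
  rw [h2, h1, GPt.map_ofRingHom]
  rfl

include hW hW0 in
/-- `G(K ⊕ I) → G(B)` maps infinitesimal points bijectively onto the kernel of
`G(B) → G(B/I)`: injectivity. -/
theorem toRing_injective_of_isInf {ν ν' : GPt L (SqZ K I)} (hν : IsInf ν) (hν' : IsInf ν')
    (h : GPt.map L (SqZ.toRing I hI) ν = GPt.map L (SqZ.toRing I hI) ν') : ν = ν' := by
  obtain ⟨ε, hε, h1⟩ := exists_zeroRingHom (L := L) hW hW0
  obtain ⟨φ, hφ, rfl⟩ := GPt.eq_ofRingHom hW ν (hν.preimage hW0)
  obtain ⟨φ', hφ', rfl⟩ := GPt.eq_ofRingHom hW ν' (hν'.preimage hW0)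
  unfold IsInf at hν hν'
  rw [GPt.map_ofRingHom, h1] at hν hν'
  have e1 := GPt.ofRingHom_injective hW hν
  have e2 := GPt.ofRingHom_injective hW hν'
  rw [GPt.map_ofRingHom, GPt.map_ofRingHom] at h
  have e3 := GPt.ofRingHom_injective hW h
  have : φ = φ' := by
    refine RingHom.ext fun r => ?_
    have a1 : (φ r).fst = ε r := congrArg (fun g : _ →+* _ => g r) e1
    have a2 : (φ' r).fst = ε r := congrArg (fun g : _ →+* _ => g r) e2
    have a3 : algebraMap K B (φ r).fst + ((φ r).snd : B) =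
        algebraMap K B (φ' r).fst + ((φ' r).snd : B) := congrArg (fun g : _ →+* _ => g r) e3
    rw [a1, a2] at a3
    exact SqZ.ext (a1.trans a2.symm) (Subtype.ext (add_left_cancel a3))
  subst this
  rfl

include hW hW0 in
/-- `G(K ⊕ I) → G(B)` maps infinitesimal points bijectively onto the kernel of
`G(B) → G(B/I)`: surjectivity. -/
theorem exists_isInf_of_map_eq_one (x : GPt L B)
    (hx : GPt.map L (Ideal.Quotient.mkₐ K I) x = 1) :
    ∃ ν : GPt L (SqZ K I), IsInf ν ∧ GPt.map L (SqZ.toRing I hI) ν = x := by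
  obtain ⟨ε, hε, h1⟩ := exists_zeroRingHom (L := L) hW hW0
  have hxW : x.hom ⁻¹ᵁ W = ⊤ :=
    GPt.preimage_eq_top_of_map_eq_one hW0 (Ideal.Quotient.mkₐ K I)
      (Ideal.Quotient.mkₐ_surjective K I) (ker_mk_le_nilradical (K := K) I hI) x hx
  obtain ⟨ψ, hψ, rfl⟩ := GPt.eq_ofRingHom hW x hxW
  rw [GPt.map_ofRingHom, one_eq_ofRingHom hW h1 (B ⧸ I)] at hx
  have e1 := GPt.ofRingHom_injective hW hx
  have hmem : ∀ r, ψ r - algebraMap K B (ε r) ∈ I := fun r => by
    have a1 : Ideal.Quotient.mk I (ψ r) = algebraMap K (B ⧸ I) (ε r) :=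
      congrArg (fun g : _ →+* _ => g r) e1
    rw [← Ideal.Quotient.eq_zero_iff_mem, map_sub, a1]
    exact sub_self _
  have hcompat : ∀ a : K, SqZ.factor I hI ψ ε hmem ((sigma hW f).hom a) =
      algebraMap K (SqZ K I) a := fun a => by
    ext
    · exact hε a
    · show ψ ((sigma hW f).hom a) - algebraMap K B (ε ((sigma hW f).hom a)) = 0
      rw [hψ, hε]
      exact sub_self _
  refine ⟨GPt.ofRingHom hW L (SqZ.factor I hI ψ ε hmem) hcompat, ?_, ?_⟩
  · unfold IsInf
    rw [GPt.map_ofRingHom, h1]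
    rfl
  · rw [GPt.map_ofRingHom]
    congr 1
    ext r
    exact SqZ.toRing_factor I hI ψ ε hmem r

theorem map_mk_toRing_of_isInf {ν : GPt L (SqZ K I)} (hν : IsInf ν) :
    GPt.map L (Ideal.Quotient.mkₐ K I) (GPt.map L (SqZ.toRing I hI) ν) = 1 := by
  rw [GPt.map_map, mk_comp_toRing, ← GPt.map_map, hν, map_one]

include hI hW hW0 in
/-- **The kernel of `G(B) → G(B/I)` is uniquely `n`-divisible** (`I² = 0`, `n` invertible). -/
theorem existsUnique_pow_of_map_eq_one (n : ℕ) (hn : (n : K) ≠ 0) (x : GPt L B)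
    (hx : GPt.map L (Ideal.Quotient.mkₐ K I) x = 1) :
    ∃! y : GPt L B, GPt.map L (Ideal.Quotient.mkₐ K I) y = 1 ∧ y ^ n = x := by
  obtain ⟨ν, hν, rfl⟩ := exists_isInf_of_map_eq_one I hI hW hW0 x hx
  obtain ⟨μ, ⟨hμ, hμν⟩, huniq⟩ := hν.existsUnique_pow hW hW0 n hn
  refine ⟨GPt.map L (SqZ.toRing I hI) μ, ⟨map_mk_toRing_of_isInf I hI hμ, ?_⟩, ?_⟩
  · rw [← map_pow, hμν]
  · rintro y ⟨hy1, hy2⟩
    obtain ⟨μ', hμ', rfl⟩ := exists_isInf_of_map_eq_one I hI hW hW0 y hy1
    rw [← map_pow] at hy2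
    have h3 : μ' ^ n = ν := toRing_injective_of_isInf I hI hW hW0 (hμ'.pow n) hν hy2
    rw [huniq μ' ⟨hμ', h3⟩]

end Thick


/-! ## Unique infinitesimal lifting for `[n]` -/

section Lift

variable {L : RelativeGroupLaw K f}
variable {B : Type u} [CommRing B] [Algebra K B]

theorem GPt.pow_hom (x : GPt L B) (n : ℕ) : (x ^ n).hom = x.hom ≫ L.schemeNsmul n := by
  rw [GPt.pow_eq_nsmul]
  have h := L.nsmul_natural f (specStr K B) x.hom x.hom_comp_str n RelativeGroupLaw.idPoint
  have h2 : schemeHomOverComp x.hom x.hom_comp_str (RelativeGroupLaw.idPoint (f := f)) = x :=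
    Subtype.ext (Category.comp_id _)
  rw [h2] at h
  exact (congrArg Subtype.val h).symm

theorem GPt.commute (hc : L.IsCommutative) (x y : GPt L B) : Commute x y :=
  hc (specStr K B) x y

variable {V : A.Opens} (hV : IsAffineOpen V)

/-- `Γ(A, V)` is a smooth `K`-algebra for every affine open `V` of a smooth `K`-scheme. -/
theorem smooth_sigma [Smooth f] : (sigma hV f).hom.Smooth := by
  haveI := hV.isOpenImmersion_fromSpec
  have hs : Smooth (Spec.map (sigma hV f)) := by
    rw [specMap_sigma]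
    infer_instance
  exact (HasRingHomProperty.Spec_iff (P := @Smooth)).mp hs

variable (I : Ideal B) (hI : I ^ 2 = ⊥)

include hI hV in
/-- Lifts exist: a `B/I`-point landing in an affine open lifts to a `B`-point. -/
theorem exists_lift [Smooth f] (b₀ : GPt L (B ⧸ I)) (hb₀ : b₀.hom ⁻¹ᵁ V = ⊤) :
    ∃ b : GPt L B, GPt.map L (Ideal.Quotient.mkₐ K I) b = b₀ := by
  obtain ⟨φ₀, hφ₀, rfl⟩ := GPt.eq_ofRingHom hV b₀ hb₀
  letI : Algebra K Γ(A, V) := (sigma hV f).hom.toAlgebra
  haveI : Algebra.Smooth K Γ(A, V) := smooth_sigma hV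
  let φ₀alg : Γ(A, V) →ₐ[K] B ⧸ I := { φ₀ with commutes' := hφ₀ }
  obtain ⟨φ, hφ⟩ := Algebra.FormallySmooth.comp_surjective K Γ(A, V) I hI φ₀alg
  refine ⟨GPt.ofRingHom hV L φ.toRingHom (fun a => φ.commutes a), ?_⟩
  rw [GPt.map_ofRingHom]
  congr 1
  ext r
  exact congrArg (fun g : Γ(A, V) →ₐ[K] B ⧸ I => g r) hφ

variable {W : A.Opens} (hW : IsAffineOpen W) (hW0 : zeroSec L ⁻¹ᵁ W = ⊤)

include hI hW hW0 hV in
/-- **Unique infinitesimal lifting for `[n]`** (group form). -/
theorem existsUnique_lift_pow [Smooth f] (hc : L.IsCommutative) (n : ℕ) (hn : (n : K) ≠ 0)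
    (b₀ : GPt L (B ⧸ I)) (hb₀ : b₀.hom ⁻¹ᵁ V = ⊤) (c : GPt L B)
    (h : b₀ ^ n = GPt.map L (Ideal.Quotient.mkₐ K I) c) :
    ∃! b : GPt L B, GPt.map L (Ideal.Quotient.mkₐ K I) b = b₀ ∧ b ^ n = c := by
  obtain ⟨b', hb'⟩ := exists_lift hV I hI b₀ hb₀
  have hd : GPt.map L (Ideal.Quotient.mkₐ K I) (c * (b' ^ n)⁻¹) = 1 := by
    rw [map_mul, map_inv, map_pow, hb', ← h, mul_inv_cancel]
  obtain ⟨y, ⟨hy1, hy2⟩, hyu⟩ := existsUnique_pow_of_map_eq_one I hI hW hW0 n hn _ hd
  refine ⟨y * b', ⟨?_, ?_⟩, ?_⟩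
  · rw [map_mul, hy1, hb', one_mul]
  · rw [(GPt.commute hc y b').mul_pow, hy2, inv_mul_cancel_right]
  · rintro b₁ ⟨h1, h2⟩
    have e1 : GPt.map L (Ideal.Quotient.mkₐ K I) (b₁ * b'⁻¹) = 1 := by
      rw [map_mul, map_inv, h1, hb', mul_inv_cancel]
    have e2 : (b₁ * b'⁻¹) ^ n = c * (b' ^ n)⁻¹ := by
      rw [(GPt.commute hc b₁ b'⁻¹).mul_pow, h2, inv_pow]
    rw [← hyu (b₁ * b'⁻¹) ⟨e1, e2⟩, inv_mul_cancel_right]

end Lift


/-! ## `[n]` is étale -/

section Etale

variable (L : RelativeGroupLaw K f)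
variable {U V : A.Opens} (hU : IsAffineOpen U) (hV : IsAffineOpen V)

theorem sigma_comp_appLE (n : ℕ) (e : V ≤ L.schemeNsmul n ⁻¹ᵁ U) :
    sigma hU f ≫ (L.schemeNsmul n).appLE U V e = sigma hV f := by
  apply Spec.map_injective
  rw [Spec.map_comp, specMap_sigma, specMap_sigma, ← Category.assoc,
    IsAffineOpen.SpecMap_appLE_fromSpec _ hU hV e, Category.assoc, L.schemeNsmul_over]

theorem sigma_appLE_apply (n : ℕ) (e : V ≤ L.schemeNsmul n ⁻¹ᵁ U) (a : K) :
    ((L.schemeNsmul n).appLE U V e).hom ((sigma hU f).hom a) = (sigma hV f).hom a :=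
  congrArg (fun g : CommRingCat.of K ⟶ Γ(A, V) => g.hom a) (sigma_comp_appLE L hU hV n e)

variable {L}
variable {B : Type u} [CommRing B] [Algebra K B]

theorem GPt.pow_ofRingHom (n : ℕ) (e : V ≤ L.schemeNsmul n ⁻¹ᵁ U) (g : Γ(A, V) →+* B)
    (hg : ∀ a : K, g ((sigma hV f).hom a) = algebraMap K B a) :
    (GPt.ofRingHom hV L g hg) ^ n =
      GPt.ofRingHom hU L (g.comp ((L.schemeNsmul n).appLE U V e).hom) (fun a => by
        rw [RingHom.comp_apply, sigma_appLE_apply L hU hV n e, hg]) := by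
  ext
  rw [GPt.pow_hom, GPt.ofRingHom_hom, GPt.ofRingHom_hom, Category.assoc,
    ← IsAffineOpen.SpecMap_appLE_fromSpec _ hU hV e, ← Category.assoc, ← Spec.map_comp]
  rfl

variable {W : A.Opens} (hW : IsAffineOpen W) (hW0 : zeroSec L ⁻¹ᵁ W = ⊤)
variable (I : Ideal B) (hI : I ^ 2 = ⊥)

include hI hW hW0 hU hV in
/-- Unique infinitesimal lifting for `[n]`, ring form: for affine opens `V ⊆ [n]⁻¹ U`. -/
theorem existsUnique_ringHom_lift [Smooth f] (hc : L.IsCommutative) (n : ℕ) (hn : (n : K) ≠ 0)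
    (e : V ≤ L.schemeNsmul n ⁻¹ᵁ U) (γ : Γ(A, U) →+* B)
    (hγ : ∀ a : K, γ ((sigma hU f).hom a) = algebraMap K B a) (g₀ : Γ(A, V) →+* B ⧸ I)
    (h₀ : g₀.comp ((L.schemeNsmul n).appLE U V e).hom = (Ideal.Quotient.mk I).comp γ) :
    ∃! g : Γ(A, V) →+* B, (Ideal.Quotient.mk I).comp g = g₀ ∧
      g.comp ((L.schemeNsmul n).appLE U V e).hom = γ := by
  have hg₀ : ∀ a : K, g₀ ((sigma hV f).hom a) = algebraMap K (B ⧸ I) a := fun a => by
    rw [← sigma_appLE_apply L hU hV n e a]
    have := congrArg (fun φ : Γ(A, U) →+* B ⧸ I => φ ((sigma hU f).hom a)) h₀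
    simp only [RingHom.comp_apply] at this
    rw [this, hγ]
    rfl
  have hcompat : ∀ g : Γ(A, V) →+* B, g.comp ((L.schemeNsmul n).appLE U V e).hom = γ →
      ∀ a : K, g ((sigma hV f).hom a) = algebraMap K B a := fun g hg a => by
    rw [← sigma_appLE_apply L hU hV n e a, ← hγ a, ← hg]
    rfl
  have hpow : (GPt.ofRingHom hV L g₀ hg₀) ^ n =
      GPt.map L (Ideal.Quotient.mkₐ K I) (GPt.ofRingHom hU L γ hγ) := by
    rw [GPt.pow_ofRingHom hU hV n e, GPt.map_ofRingHom]
    congr 1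
  obtain ⟨b, ⟨hb1, hb2⟩, hbu⟩ := existsUnique_lift_pow hV I hI hW hW0 hc n hn
    (GPt.ofRingHom hV L g₀ hg₀) (preimage_fromSpec_comp hV _) (GPt.ofRingHom hU L γ hγ) hpow
  have hbV : b.hom ⁻¹ᵁ V = ⊤ := by
    refine preimage_eq_top_of_nilpotent (CommRingCat.ofHom (Ideal.Quotient.mkₐ K I).toRingHom)
      (Ideal.Quotient.mkₐ_surjective K I) (ker_mk_le_nilradical (K := K) I hI) b.hom V ?_
    have h1 := congrArg GPt.hom hb1
    rw [GPt.hom_map] at h1
    rw [show Spec.map (CommRingCat.ofHom (Ideal.Quotient.mkₐ K I).toRingHom) ≫ b.hom =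
      (GPt.ofRingHom hV L g₀ hg₀).hom from h1]
    exact preimage_fromSpec_comp hV _
  obtain ⟨g, hg, rfl⟩ := GPt.eq_ofRingHom hV b hbV
  rw [GPt.map_ofRingHom] at hb1
  rw [GPt.pow_ofRingHom hU hV n e] at hb2
  have e1 := GPt.ofRingHom_injective hV hb1
  have e2 := GPt.ofRingHom_injective hU hb2
  refine ⟨g, ⟨e1, e2⟩, ?_⟩
  rintro g' ⟨h1, h2⟩
  have hg' := hcompat g' h2
  have key := hbu (GPt.ofRingHom hV L g' hg') ⟨by
      rw [GPt.map_ofRingHom]
      congr 1, by
      rw [GPt.pow_ofRingHom hU hV n e]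
      congr 1⟩
  exact GPt.ofRingHom_injective hV key

include hW hW0 hU hV in
/-- `Γ(A, U) → Γ(A, V)` is formally étale for affine opens `V ⊆ [n]⁻¹ U`. -/
theorem formallyEtale_appLE [Smooth f] (hc : L.IsCommutative) (n : ℕ) (hn : (n : K) ≠ 0)
    (e : V ≤ L.schemeNsmul n ⁻¹ᵁ U) :
    @Algebra.FormallyEtale Γ(A, U) Γ(A, V) _ _
      ((L.schemeNsmul n).appLE U V e).hom.toAlgebra := by
  letI : Algebra Γ(A, U) Γ(A, V) := ((L.schemeNsmul n).appLE U V e).hom.toAlgebra
  rw [Algebra.FormallyEtale.iff_comp_bijective]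
  intro B' _ _ I' hI'
  letI : Algebra K B' := ((algebraMap Γ(A, U) B').comp (sigma hU f).hom).toAlgebra
  have key := fun g₀ h₀ => existsUnique_ringHom_lift (L := L) (B := B') hU hV hW hW0 I' hI' hc
    n hn e (algebraMap Γ(A, U) B') (fun _ => rfl) g₀ h₀
  constructor
  · intro g g' hgg'
    have hc1 : ((Ideal.Quotient.mk I').comp g.toRingHom).comp
        ((L.schemeNsmul n).appLE U V e).hom =
        (Ideal.Quotient.mk I').comp (algebraMap Γ(A, U) B') := by
      ext r
      exact congrArg (Ideal.Quotient.mk I') (g.commutes r)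
    obtain ⟨g₁, _, hu⟩ := key _ hc1
    have h1 : g.toRingHom = g₁ := hu g.toRingHom ⟨rfl, RingHom.ext fun r => g.commutes r⟩
    have h2 : g'.toRingHom = g₁ := hu g'.toRingHom
      ⟨RingHom.ext fun r => (congrArg (fun φ : Γ(A, V) →ₐ[Γ(A, U)] B' ⧸ I' => φ r) hgg').symm,
        RingHom.ext fun r => g'.commutes r⟩
    exact AlgHom.coe_ringHom_injective (h1.trans h2.symm)
  · intro g₀
    have hc1 : g₀.toRingHom.comp ((L.schemeNsmul n).appLE U V e).hom =
        (Ideal.Quotient.mk I').comp (algebraMap Γ(A, U) B') := by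
      ext r
      exact g₀.commutes r
    obtain ⟨g, ⟨hg1, hg2⟩, _⟩ := key _ hc1
    refine ⟨{ g with commutes' := fun r => congrArg (fun φ : Γ(A, U) →+* B' => φ r) hg2 }, ?_⟩
    ext r
    exact congrArg (fun φ : Γ(A, V) →+* B' ⧸ I' => φ r) hg1

include hU hV in
/-- `Γ(A, U) → Γ(A, V)` is of finite presentation for affine opens `V ⊆ [n]⁻¹ U`. -/
theorem finitePresentation_appLE [Smooth f] (n : ℕ) (e : V ≤ L.schemeNsmul n ⁻¹ᵁ U) :
    @Algebra.FinitePresentation Γ(A, U) Γ(A, V) _ _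
      ((L.schemeNsmul n).appLE U V e).hom.toAlgebra := by
  letI : Algebra Γ(A, U) Γ(A, V) := ((L.schemeNsmul n).appLE U V e).hom.toAlgebra
  letI : Algebra K Γ(A, U) := (sigma hU f).hom.toAlgebra
  letI : Algebra K Γ(A, V) := (sigma hV f).hom.toAlgebra
  haveI : IsScalarTower K Γ(A, U) Γ(A, V) :=
    IsScalarTower.of_algebraMap_eq fun a => (sigma_appLE_apply L hU hV n e a).symm
  haveI : Algebra.Smooth K Γ(A, U) := smooth_sigma hU
  haveI : Algebra.Smooth K Γ(A, V) := smooth_sigma hV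
  haveI : Algebra.FinitePresentation K Γ(A, V) := Algebra.Smooth.finitePresentation
  haveI : Algebra.FinitePresentation K Γ(A, U) := Algebra.Smooth.finitePresentation
  exact Algebra.FinitePresentation.of_restrict_scalars_finitePresentation K Γ(A, U) Γ(A, V)

end Etale

/-- In `Spec K` (`K` a field) every nonempty open is everything. -/
theorem opens_spec_field_eq_top' (U : (Spec (CommRingCat.of K)).Opens)
    (y : Spec (CommRingCat.of K)) (hy : y ∈ U) : U = ⊤ := by
  haveI : Subsingleton (Spec (CommRingCat.of K)) :=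
    inferInstanceAs (Subsingleton (PrimeSpectrum K))
  ext z
  simp only [TopologicalSpace.Opens.coe_top, Set.mem_univ, iff_true, SetLike.mem_coe]
  rwa [Subsingleton.elim z y]

/-- **S26 / SOFT / S3.** On a smooth commutative group scheme over a field `K`, multiplication
by `n` is étale as soon as `n` is invertible in `K`. -/
theorem etale_schemeNsmul [Smooth f] (L : RelativeGroupLaw K f) (hc : L.IsCommutative) (n : ℕ)
    (hn : (n : K) ≠ 0) : Etale (L.schemeNsmul n) := by
  haveI : Nonempty (Spec (CommRingCat.of K)) :=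
    inferInstanceAs (Nonempty (PrimeSpectrum K))
  let pt : Spec (CommRingCat.of K) := Classical.arbitrary _
  obtain ⟨W, hW, hptW, -⟩ := exists_isAffineOpen_mem_and_subset
    (x := zeroSec L pt) (U := ⊤) trivial
  have hW0 : zeroSec L ⁻¹ᵁ W = ⊤ := opens_spec_field_eq_top' _ pt hptW
  rw [HasRingHomProperty.iff_appLE (P := @Etale)]
  intro U V e
  exact @Algebra.Etale.mk _ _ _ _ ((L.schemeNsmul n).appLE U.1 V.1 e).hom.toAlgebra
    (formallyEtale_appLE U.2 V.2 hW hW0 hc n hn e) (finitePresentation_appLE U.2 V.2 n e)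

end

end Fermat.Agent.S26.H685
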