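/-
S26 (torsion of abelian varieties), block SOFT (helper685): leaf S3 in `AbVar` form and the
block statement `Stmt.Soft`.

* `etale_nsmulHom`  : `[n]` is étale on an abelian variety when `n` is invertible in `K`
  (from `H685.etale_schemeNsmul`, proved by unique infinitesimal lifting);
* `etaleNsmul`      : the same as a `∀`-statement (= helper527's leaf `Soft.Stmt.EtaleNsmul K`);
* `soft`            : `Stmt.Soft K`, via helper147's glue `H147.soft_of_etale`.
-/
import Fermat.Agent.S26.H147.SoftGlue
import Fermat.Agent.S26.H685.NsmulEtale

set_option autoImplicit false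
universe u

open CategoryTheory CategoryTheory.Limits AlgebraicGeometry NeronModelInfra GoodReductionJacobian

namespace Fermat.Agent.S26.H685

/-- **SOFT / S3.** Multiplication by `n` on an abelian variety over a field `K` is étale as
soon as `n` is invertible in `K`. -/
theorem etale_nsmulHom {K : Type u} [Field K] (X : AbVar K) (n : ℕ) (hn : (n : K) ≠ 0) :
    Etale (X.nsmulHom n) :=
  haveI : Smooth X.str := X.bundle.smooth
  etale_schemeNsmul X.law X.comm n hn

/-- Leaf S3 as a `∀`-statement. -/
theorem etaleNsmul (K : Type u) [Field K] :
    ∀ (X : AbVar K) (n : ℕ), (n : K) ≠ 0 → Etale (X.nsmulHom n) :=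
  fun X n hn => etale_nsmulHom X n hn

/-- **Block SOFT.** For `n` invertible in the algebraically closed field `K`, `[n]` is finite
étale and the number of `n`-torsion `K`-points is its rank. -/
theorem soft (K : Type u) [Field K] [IsAlgClosed K] : Stmt.Soft K :=
  H147.soft_of_etale K (etaleNsmul K)

end Fermat.Agent.S26.H685
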